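/-
M3 part B (S21), block (I-1): a maximum modulus principle on `Γ₀(N) \ ℍ*`.
A holomorphic function on `ℍ` whose modulus is `Γ₀(N)`-invariant and all of whose
`SL₂(ℤ)`-translates are `N`-periodic and bounded at `i∞` is constant.
-/
import Mathlib

set_option autoImplicit false

open UpperHalfPlane Complex Filter Topology Function CongruenceSubgroup
open scoped Manifold Real MatrixGroups

namespace Fermat.Agent.S21

/-- periodicity of `F ∘ ofComplex` from invariance under `τ ↦ N + τ` -/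
theorem pi_periodic_of_vadd {N : ℕ} {F : ℍ → ℂ} (h : ∀ τ : ℍ, F ((N : ℝ) +ᵥ τ) = F τ) :
    Periodic (F ∘ ofComplex) ((N : ℝ) : ℂ) := by
  intro w
  by_cases hw : 0 < w.im
  · have hw1 : 0 < (w + ((N : ℝ) : ℂ)).im := by simpa using hw
    simp only [comp_apply, ofComplex_apply_of_im_pos hw, ofComplex_apply_of_im_pos hw1]
    rw [← h ⟨w, hw⟩]
    congr 1
    apply UpperHalfPlane.ext
    simp [add_comm]
  · have hw0 : w.im ≤ 0 := not_lt.mp hw
    have hw1 : (w + ((N : ℝ) : ℂ)).im ≤ 0 := by simpa using hw0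
    simp only [comp_apply]
    rw [ofComplex_apply_of_im_nonpos hw0, ofComplex_apply_of_im_nonpos hw1]

theorem pi_mdiff_comp_smul (δ : SL(2, ℤ)) {f : ℍ → ℂ} (hf : MDiff f) :
    MDiff (fun z => f (δ • z)) := by
  have h1 : MDiff (fun τ : ℍ => (Matrix.SpecialLinearGroup.mapGL ℝ δ) • τ) :=
    mdifferentiable_smul (by simp)
  exact hf.comp h1

/-- **Maximum modulus principle on the modular curve.** -/
theorem pi_const_of_invariant_norm (N : ℕ) [NeZero N] (φ : ℍ → ℂ) (hφ : MDiff φ)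
    (hinv : ∀ γ ∈ Gamma0 N, ∀ z : ℍ, ‖φ (γ • z)‖ = ‖φ z‖)
    (hper : ∀ (δ : SL(2, ℤ)) (z : ℍ), φ (δ • ((N : ℝ) +ᵥ z)) = φ (δ • z))
    (hbdd : ∀ δ : SL(2, ℤ), IsBoundedAtImInfty (fun z => φ (δ • z))) :
    ∃ c : ℂ, ∀ z : ℍ, φ z = c := by
  have hNpos : (0 : ℝ) < N := Nat.cast_pos.mpr (NeZero.pos N)
  -- the translates and their cusp functions
  have hg_mdiff : ∀ δ : SL(2, ℤ), MDiff (fun z => φ (δ • z)) := fun δ => pi_mdiff_comp_smul δ hφ
  have hg_per : ∀ δ : SL(2, ℤ), Periodic ((fun z => φ (δ • z)) ∘ ofComplex) ((N : ℝ) : ℂ) :=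
    fun δ => pi_periodic_of_vadd (hper δ)
  set Ψ : SL(2, ℤ) → ℂ → ℂ := fun δ => cuspFunction (N : ℝ) (fun z => φ (δ • z)) with hΨ
  have hΨ_diff : ∀ δ, DifferentiableOn ℂ (Ψ δ) (Metric.ball 0 1) := fun δ q hq =>
    (differentiableAt_cuspFunction hNpos (hg_per δ) (hg_mdiff δ) (hbdd δ)
      (by simpa using hq)).differentiableWithinAt
  have hΨ_eq : ∀ (δ : SL(2, ℤ)) (τ : ℍ), Ψ δ (Periodic.qParam (N : ℝ) τ) = φ (δ • τ) :=
    fun δ τ => eq_cuspFunction τ hNpos.ne' (hg_per δ)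
  -- coset representatives
  let Q := SL(2, ℤ) ⧸ Gamma0 N
  have : Finite Q := Subgroup.finite_quotient_of_finiteIndex
  let r : Q → SL(2, ℤ) := fun x => (Quotient.out x)⁻¹
  have hr : ∀ δ : SL(2, ℤ), ∃ γ ∈ Gamma0 N, δ = γ * r (QuotientGroup.mk δ⁻¹) := by
    intro δ
    obtain ⟨h, hh⟩ := QuotientGroup.mk_out_eq_mul (Gamma0 N) δ⁻¹
    refine ⟨(h : SL(2, ℤ)), h.2, ?_⟩
    show δ = (h : SL(2, ℤ)) * (Quotient.out (QuotientGroup.mk δ⁻¹ : Q))⁻¹
    rw [hh]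
    group
  -- the radius
  set ρ : ℝ := Real.exp (-π / N) with hρ
  have hρ0 : 0 ≤ ρ := (Real.exp_pos _).le
  have hρ1 : ρ < 1 := by
    rw [hρ, Real.exp_lt_one_iff]
    exact div_neg_of_neg_of_pos (neg_lt_zero.mpr Real.pi_pos) hNpos
  have hsub : Metric.closedBall (0 : ℂ) ρ ⊆ Metric.ball 0 1 :=
    Metric.closedBall_subset_ball hρ1
  -- maxima on the closed ball
  have hmax : ∀ x : Q, ∃ s ∈ Metric.closedBall (0 : ℂ) ρ,
      ∀ t ∈ Metric.closedBall (0 : ℂ) ρ, ‖Ψ (r x) t‖ ≤ ‖Ψ (r x) s‖ := by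
    intro x
    have hc : ContinuousOn (fun t => ‖Ψ (r x) t‖) (Metric.closedBall (0 : ℂ) ρ) :=
      ((hΨ_diff (r x)).continuousOn.mono hsub).norm
    obtain ⟨s, hs, hmaxs⟩ := (isCompact_closedBall (0 : ℂ) ρ).exists_isMaxOn
      ⟨0, by simpa using hρ0⟩ hc
    exact ⟨s, hs, fun t ht => hmaxs ht⟩
  choose s hs hsmax using hmax
  obtain ⟨x0, hx0⟩ := Finite.exists_max fun x : Q => ‖Ψ (r x) (s x)‖
  -- the global bound
  have hglob : ∀ t ∈ Metric.ball (0 : ℂ) 1, ‖Ψ (r x0) t‖ ≤ ‖Ψ (r x0) (s x0)‖ := by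
    intro t ht
    have ht1 : ‖t‖ < 1 := by simpa using ht
    by_cases ht0 : t = 0
    · subst ht0
      exact hsmax x0 0 (by simpa using hρ0)
    · let τ : ℍ := ⟨Periodic.invQParam (N : ℝ) t,
        Periodic.im_invQParam_pos_of_norm_lt_one hNpos ht1 ht0⟩
      have hτ : Periodic.qParam (N : ℝ) (τ : ℂ) = t := Periodic.qParam_right_inv hNpos.ne' ht0
      rw [← hτ, hΨ_eq]
      obtain ⟨γ1, hγ1⟩ := ModularGroup.exists_one_half_le_im_smul (r x0 • τ)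
      set ξ : ℍ := γ1 • (r x0 • τ) with hξ
      obtain ⟨γ, hγ, hδ⟩ := hr γ1⁻¹
      set y : Q := QuotientGroup.mk (γ1⁻¹)⁻¹ with hy
      have h1 : r x0 • τ = γ • (r y • ξ) := by
        rw [← mul_smul, ← hδ, hξ, inv_smul_smul]
      have hq : Periodic.qParam (N : ℝ) (ξ : ℂ) ∈ Metric.closedBall (0 : ℂ) ρ := by
        rw [mem_closedBall_zero_iff, Periodic.norm_qParam, hρ, Real.exp_le_exp,
          div_le_div_iff_of_pos_right hNpos]
        have : (1 : ℝ) / 2 ≤ (ξ : ℂ).im := hγ1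
        nlinarith [Real.pi_pos]
      calc ‖φ (r x0 • τ)‖ = ‖φ (γ • (r y • ξ))‖ := by rw [h1]
        _ = ‖φ (r y • ξ)‖ := hinv γ hγ _
        _ = ‖Ψ (r y) (Periodic.qParam (N : ℝ) (ξ : ℂ))‖ := by rw [hΨ_eq]
        _ ≤ ‖Ψ (r y) (s y)‖ := hsmax y _ hq
        _ ≤ ‖Ψ (r x0) (s x0)‖ := hx0 y
  -- maximum modulus
  have hconst := Complex.eqOn_of_isPreconnected_of_isMaxOn_norm
    (convex_ball (0 : ℂ) 1).isPreconnected Metric.isOpen_ball (hΨ_diff (r x0))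
    (hsub (hs x0)) (fun t ht => hglob t ht)
  refine ⟨Ψ (r x0) (s x0), fun z => ?_⟩
  have h2 := hΨ_eq (r x0) ((r x0)⁻¹ • z)
  rw [smul_inv_smul] at h2
  rw [← h2]
  refine hconst ?_
  rw [mem_ball_zero_iff]
  exact Periodic.norm_qParam_lt_one hNpos (UpperHalfPlane.im_pos _)

end Fermat.Agent.S21
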