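/-
M3 part B (S21), block (I-2): injectivity of `ModularCurve.periodHomPair`.
-/
import Mathlib
import Fermat.Prelude.Def_ModularCurve_PeriodHomPair
import Fermat.Agent.S21.MaxModulus
import Fermat.Agent.S24.Germ.Cusp

set_option autoImplicit false

open UpperHalfPlane Complex Filter Topology Function CongruenceSubgroup
open ModularCurve ModularCurve.Period
open scoped Manifold Real MatrixGroups ComplexConjugate

namespace Fermat.Agent.S21

/-! ### The anti-holomorphic involution `z ↦ -conj z` -/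

/-- `z ↦ -conj z` on the upper half plane -/
noncomputable def pi_J (z : ℍ) : ℍ := ⟨-conj (z : ℂ), by simpa using z.im_pos⟩

theorem pi_coe_J (z : ℍ) : (pi_J z : ℂ) = -conj (z : ℂ) := rfl

theorem pi_J_J (z : ℍ) : pi_J (pi_J z) = z := by
  apply UpperHalfPlane.ext
  simp [pi_coe_J]

theorem pi_im_J (z : ℍ) : (pi_J z).im = z.im := by
  have : (pi_J z).im = (-conj (z : ℂ)).im := rfl
  rw [this]
  simp

theorem pi_tendsto_J : Tendsto pi_J atImInfty atImInfty := by
  rw [atImInfty, tendsto_comap_iff]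
  have h1 : (UpperHalfPlane.im ∘ pi_J) = UpperHalfPlane.im := by
    ext z
    exact pi_im_J z
  rw [h1]
  exact tendsto_comap

theorem pi_J_smul (γ : SL(2, ℤ)) (z : ℍ) : pi_J (γ • z) = jConjSL γ • pi_J z := by
  apply UpperHalfPlane.ext
  rw [pi_coe_J, coe_specialLinearGroup_apply, coe_specialLinearGroup_apply, pi_coe_J]
  have e00 : (jConjSL γ) 0 0 = γ 0 0 := by
    show (jConjSL γ : Matrix (Fin 2) (Fin 2) ℤ) 0 0 = _
    rw [jConjSL_coe, jConjMat_apply_zero_zero]
  have e01 : (jConjSL γ) 0 1 = -γ 0 1 := by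
    show (jConjSL γ : Matrix (Fin 2) (Fin 2) ℤ) 0 1 = _
    rw [jConjSL_coe, jConjMat_apply_zero_one]
  have e10 : (jConjSL γ) 1 0 = -γ 1 0 := by
    show (jConjSL γ : Matrix (Fin 2) (Fin 2) ℤ) 1 0 = _
    rw [jConjSL_coe, jConjMat_apply_one_zero]
  have e11 : (jConjSL γ) 1 1 = γ 1 1 := by
    show (jConjSL γ : Matrix (Fin 2) (Fin 2) ℤ) 1 1 = _
    rw [jConjSL_coe, jConjMat_apply_one_one]
  rw [e00, e01, e10, e11]
  simp only [algebraMap_int_eq, Int.coe_castRingHom, map_div₀, map_add, map_mul, Complex.conj_ofReal,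
    Int.cast_neg, ofReal_neg, ← neg_div]
  congr 1 <;> ring

/-! ### Primitives with limits at all cusps -/

/-- the properties of a primitive used in the maximum modulus argument -/
structure pi_IsPrim (N : ℕ) (F : ℍ → ℂ) : Prop where
  mdiff : MDiff F
  equiv : IsEquivariantPrimitive (Gamma0 N) F
  lim : ∀ δ : SL(2, ℤ), ∃ L : ℂ, Tendsto (fun w : ℍ => F (δ • w)) atImInfty (𝓝 L)

theorem pi_tendsto_vadd (a : ℝ) : Tendsto (fun z : ℍ => a +ᵥ z) atImInfty atImInfty := by
  rw [atImInfty, tendsto_comap_iff]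
  have h1 : (UpperHalfPlane.im ∘ fun z : ℍ => a +ᵥ z) = UpperHalfPlane.im := by
    ext z
    simp
  rw [h1]
  exact tendsto_comap

/-- the translates of such a primitive are `N`-periodic: parabolic periods vanish -/
theorem pi_IsPrim.periodic {N : ℕ} {F : ℍ → ℂ} (hF : pi_IsPrim N F) (δ : SL(2, ℤ)) (z : ℍ) :
    F (δ • ((N : ℝ) +ᵥ z)) = F (δ • z) := by
  set γ' : Gamma0 N := ⟨δ * ModularGroup.T ^ (N : ℤ) * δ⁻¹,
    Fermat.Agent.S24.gm_conj_T_pow_mem_Gamma0 δ⟩ with hγ'
  have hsm : ∀ w : ℍ, δ • ((N : ℝ) +ᵥ w) = (γ' : SL(2, ℤ)) • (δ • w) := by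
    intro w
    have h1 : ((N : ℝ) +ᵥ w) = ModularGroup.T ^ (N : ℤ) • w := by
      rw [modular_T_zpow_smul]
      simp
    rw [h1, hγ']
    simp only [mul_smul, inv_smul_smul]
  obtain ⟨c, hc⟩ := hF.equiv γ'
  obtain ⟨L, hL⟩ := hF.lim δ
  have h2 : Tendsto (fun w : ℍ => F (δ • ((N : ℝ) +ᵥ w)) - F (δ • w)) atImInfty (𝓝 (L - L)) :=
    (hL.comp (pi_tendsto_vadd (N : ℝ))).sub hL
  have h3 : (fun w : ℍ => F (δ • ((N : ℝ) +ᵥ w)) - F (δ • w)) = fun _ => c := by
    ext w
    rw [hsm w]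
    exact hc (δ • w)
  rw [h3, sub_self] at h2
  have hc0 : c = 0 := tendsto_nhds_unique tendsto_const_nhds h2
  have h4 := hc (δ • z)
  rw [← hsm z, hc0] at h4
  exact sub_eq_zero.mp h4

theorem pi_isPrim_of_hasEquivariantPrimitive {N : ℕ} {f : CuspForm (Gamma0 N) 2} {F : ℍ → ℂ}
    (hF : HasEquivariantPrimitive N f F) : pi_IsPrim N F := by
  refine ⟨?_, hF.2.2.1, hF.2.2.2⟩
  rw [UpperHalfPlane.mdifferentiable_iff]
  intro w hw
  have h1 := hF.1 ⟨w, hw⟩
  exact h1.differentiableAt.differentiableWithinAt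

/-! ### The conjugate primitive -/

/-- `G z = -conj (F (-conj z))` -/
noncomputable def pi_conjPrim (F : ℍ → ℂ) (z : ℍ) : ℂ := -conj (F (pi_J z))

theorem pi_hasDerivAt_conjPrim {F : ℍ → ℂ} {f : ℍ → ℂ}
    (hF : ∀ τ : ℍ, HasDerivAt (F ∘ ofComplex) (f τ) ↑τ) (τ : ℍ) :
    HasDerivAt (pi_conjPrim F ∘ ofComplex) (conj (f (pi_J τ))) ↑τ := by
  -- near `τ`, `pi_conjPrim F ∘ ofComplex = fun w => -conj ((F ∘ ofComplex) (-conj w))`
  have h1 : HasDerivAt (fun u : ℂ => (F ∘ ofComplex) (-u)) (-(f (pi_J τ))) (conj (τ : ℂ)) := by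
    have h2 := hF (pi_J τ)
    rw [pi_coe_J] at h2
    have h3 : HasDerivAt (fun u : ℂ => -u) (-1) (conj (τ : ℂ)) := (hasDerivAt_id _).neg
    have h4 := HasDerivAt.comp (conj (τ : ℂ)) (h₂ := F ∘ ofComplex) (h := fun u : ℂ => -u) h2 h3
    simpa [Function.comp_def] using h4
  have h5 : HasDerivAt (conj ∘ (fun u : ℂ => (F ∘ ofComplex) (-u)) ∘ conj)
      (-(conj (f (pi_J τ)))) (τ : ℂ) := by
    rw [hasDerivAt_conj_conj_iff]
    simpa using h1
  have h6 := h5.neg
  rw [neg_neg] at h6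
  refine h6.congr_of_eventuallyEq ?_
  have hopen : {w : ℂ | 0 < w.im} ∈ 𝓝 (τ : ℂ) :=
    (isOpen_lt continuous_const Complex.continuous_im).mem_nhds τ.im_pos
  filter_upwards [hopen] with w hw
  have hw' : 0 < (-conj w).im := by simpa using hw
  simp only [comp_apply, pi_conjPrim, Pi.neg_apply, ofComplex_apply_of_im_pos hw,
    ofComplex_apply_of_im_pos hw']
  congr 3

theorem pi_isPrim_conjPrim {N : ℕ} {f : CuspForm (Gamma0 N) 2} {F : ℍ → ℂ}
    (hF : HasEquivariantPrimitive N f F) : pi_IsPrim N (pi_conjPrim F) := by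
  refine ⟨?_, ?_, ?_⟩
  · rw [UpperHalfPlane.mdifferentiable_iff]
    intro w hw
    have h1 := pi_hasDerivAt_conjPrim hF.1 ⟨w, hw⟩
    exact h1.differentiableAt.differentiableWithinAt
  · intro γ
    obtain ⟨c, hc⟩ := hF.2.2.1 (jConjGamma0 N γ)
    refine ⟨-conj c, fun z => ?_⟩
    have h1 := hc (pi_J z)
    simp only [pi_conjPrim, pi_J_smul]
    rw [jConjGamma0_coe] at h1
    rw [← h1]
    simp only [map_sub]
    ring
  · intro δ
    obtain ⟨L, hL⟩ := hF.2.2.2 (jConjSL δ)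
    refine ⟨-conj L, ?_⟩
    have h1 : (fun w : ℍ => pi_conjPrim F (δ • w))
        = fun w : ℍ => -conj ((fun v : ℍ => F (jConjSL δ • v)) (pi_J w)) := by
      ext w
      simp only [pi_conjPrim, pi_J_smul]
    rw [h1]
    exact ((Complex.continuous_conj.tendsto L).comp (hL.comp pi_tendsto_J)).neg

theorem pi_period_conjPrim {N : ℕ} {f : CuspForm (Gamma0 N) 2} {F : ℍ → ℂ}
    (hF : HasEquivariantPrimitive N f F) (γ : Gamma0 N) (z : ℍ) :
    pi_conjPrim F ((γ : SL(2, ℤ)) • z) - pi_conjPrim F z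
      = -conj (hF.2.2.1.period (jConjGamma0 N γ)) := by
  have h1 := hF.2.2.1.sub_eq_period (jConjGamma0 N γ) (pi_J z)
  rw [jConjGamma0_coe] at h1
  simp only [pi_conjPrim, pi_J_smul]
  rw [← h1]
  simp only [map_sub]
  ring

/-! ### The core argument -/

theorem pi_key {N : ℕ} [NeZero N] {a b : CuspForm (Gamma0 N) 2} {Fa Fb : ℍ → ℂ}
    (ha : HasEquivariantPrimitive N a Fa) (hb : HasEquivariantPrimitive N b Fb)
    (hper : ∀ γ : Gamma0 N, ha.2.2.1.period γ + hb.2.2.1.period (jConjGamma0 N γ) = 0)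
    (l : ℂ) (τ : ℍ) : l * a τ - conj l * conj (b (pi_J τ)) = 0 := by
  have hA := pi_isPrim_of_hasEquivariantPrimitive ha
  have hG := pi_isPrim_conjPrim hb
  set G : ℍ → ℂ := pi_conjPrim Fb with hGdef
  set H : ℍ → ℂ := fun z => l * Fa z - conj l * G z with hH
  set φ : ℍ → ℂ := fun z => cexp (H z) with hφ
  have hH_mdiff : MDiff H :=
    (mdifferentiable_const.mul hA.mdiff).sub (mdifferentiable_const.mul hG.mdiff)
  have hφ_mdiff : MDiff φ := by
    rw [UpperHalfPlane.mdifferentiable_iff] at hH_mdiff ⊢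
    exact hH_mdiff.cexp
  -- invariance of the modulus
  have hinv : ∀ γ ∈ Gamma0 N, ∀ z : ℍ, ‖φ (γ • z)‖ = ‖φ z‖ := by
    intro γ hγ z
    simp only [hφ, Complex.norm_exp]
    congr 1
    have h1 := ha.2.2.1.sub_eq_period ⟨γ, hγ⟩ z
    have h2 := pi_period_conjPrim hb ⟨γ, hγ⟩ z
    have h3 := hper ⟨γ, hγ⟩
    have h4 : hb.2.2.1.period (jConjGamma0 N ⟨γ, hγ⟩) = -ha.2.2.1.period ⟨γ, hγ⟩ := by
      linear_combination h3
    rw [h4] at h2
    simp only [map_neg, neg_neg] at h2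
    have h5 : H (γ • z) - H z
        = l * ha.2.2.1.period ⟨γ, hγ⟩ - conj (l * ha.2.2.1.period ⟨γ, hγ⟩) := by
      simp only [hH, map_mul]
      have h1' : Fa (γ • z) - Fa z = ha.2.2.1.period ⟨γ, hγ⟩ := h1
      have h2' : G (γ • z) - G z = conj (ha.2.2.1.period ⟨γ, hγ⟩) := h2
      linear_combination l * h1' - conj l * h2'
    have h6 : (H (γ • z) - H z).re = 0 := by
      rw [h5]
      simp
    rw [Complex.sub_re] at h6
    linarith
  -- periodicity of the translates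
  have hper' : ∀ (δ : SL(2, ℤ)) (z : ℍ), φ (δ • ((N : ℝ) +ᵥ z)) = φ (δ • z) := by
    intro δ z
    simp only [hφ, hH, hA.periodic δ z, hG.periodic δ z]
  -- boundedness of the translates
  have hbdd : ∀ δ : SL(2, ℤ), IsBoundedAtImInfty (fun z => φ (δ • z)) := by
    intro δ
    obtain ⟨La, hLa⟩ := hA.lim δ
    obtain ⟨Lg, hLg⟩ := hG.lim δ
    have h1 : Tendsto (fun z : ℍ => H (δ • z)) atImInfty (𝓝 (l * La - conj l * Lg)) :=
      (hLa.const_mul l).sub (hLg.const_mul (conj l))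
    have h2 : Tendsto (fun z : ℍ => φ (δ • z)) atImInfty (𝓝 (cexp (l * La - conj l * Lg))) :=
      (Complex.continuous_exp.tendsto _).comp h1
    exact h2.isBigO_one ℝ
  obtain ⟨c, hc⟩ := pi_const_of_invariant_norm N φ hφ_mdiff hinv hper' hbdd
  -- differentiate
  have hd1 : HasDerivAt (H ∘ ofComplex) (l * a τ - conj l * conj (b (pi_J τ))) ↑τ := by
    have h1 := (ha.1 τ).const_mul l
    have h2 := (pi_hasDerivAt_conjPrim hb.1 τ).const_mul (conj l)
    exact h1.sub h2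
  have hd2 : HasDerivAt (φ ∘ ofComplex)
      (cexp ((H ∘ ofComplex) ↑τ) * (l * a τ - conj l * conj (b (pi_J τ)))) ↑τ := hd1.cexp
  have hd3 : HasDerivAt (φ ∘ ofComplex) 0 ↑τ := by
    refine (hasDerivAt_const (τ : ℂ) c).congr_of_eventuallyEq ?_
    filter_upwards with w
    simp only [comp_apply, hc]
  have h0 := hd2.unique hd3
  rcases mul_eq_zero.mp h0 with h | h
  · exact absurd h (Complex.exp_ne_zero _)
  · exact h

theorem pi_core (N : ℕ) [NeZero N] (a b : CuspForm (Gamma0 N) 2) (Fa Fb : ℍ → ℂ)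
    (ha : HasEquivariantPrimitive N a Fa) (hb : HasEquivariantPrimitive N b Fb)
    (hper : ∀ γ : Gamma0 N, ha.2.2.1.period γ + hb.2.2.1.period (jConjGamma0 N γ) = 0) :
    a = 0 ∧ b = 0 := by
  have h1 : ∀ τ : ℍ, a τ = 0 ∧ b (pi_J τ) = 0 := by
    intro τ
    have e1 := pi_key ha hb hper 1 τ
    have e2 := pi_key ha hb hper Complex.I τ
    simp only [map_one, one_mul] at e1
    simp only [Complex.conj_I] at e2
    have e3 : a τ + conj (b (pi_J τ)) = 0 := by
      have : Complex.I * (a τ + conj (b (pi_J τ))) = 0 := by linear_combination e2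
      rcases mul_eq_zero.mp this with h | h
      · exact absurd h Complex.I_ne_zero
      · exact h
    have e4 : a τ = 0 := by linear_combination (e1 + e3) / 2
    have e5 : conj (b (pi_J τ)) = 0 := by linear_combination (e3 - e1) / 2
    exact ⟨e4, by simpa using e5⟩
  constructor
  · ext τ
    exact (h1 τ).1
  · ext τ
    have := (h1 (pi_J τ)).2
    rwa [pi_J_J] at this

/-- **Pair-injectivity** of the period map, given the existence and linearity of primitives. -/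
theorem pi_periodHomPair_injective (N : ℕ) [NeZero N]
    (hE : ∀ f : CuspForm (Gamma0 N) 2, ∃ F : ℍ → ℂ, HasEquivariantPrimitive N f F)
    (hL : ExistsPeriodMapLinear N) : Function.Injective (periodHomPair N) := by
  obtain ⟨pml, hpml, hdef⟩ := periodHomPair_def N hL
  rw [injective_iff_map_eq_zero]
  rintro ⟨f, g⟩ h0
  rw [hdef] at h0
  -- `pml (f + g) + ι (pml (f - g)) = 0`
  have h1 : pml (f + g) + charInvolution N ℂ ℂ (pml (f - g)) = 0 := by
    simp only [LinearMap.coprod_apply, LinearMap.comp_apply, LinearMap.add_apply,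
      LinearMap.sub_apply, LinearMap.id_apply] at h0
    rw [map_add, map_sub, map_sub]
    rw [← h0]
    abel
  obtain ⟨Fa0, hFa0⟩ := hE (f + g)
  obtain ⟨Fb0, hFb0⟩ := hE (f - g)
  obtain ⟨Fa, ha, hPa⟩ := periodMap_def N (f + g) hFa0
  obtain ⟨Fb, hb, hPb⟩ := periodMap_def N (f - g) hFb0
  have hper : ∀ γ : Gamma0 N, ha.2.2.1.period γ + hb.2.2.1.period (jConjGamma0 N γ) = 0 := by
    intro γ
    have h2 := congrArg (fun ψ : Additive (Gamma0 N) →+ ℂ => ψ (Additive.ofMul γ)) h1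
    simp only [AddMonoidHom.add_apply, charInvolution_apply, hpml, hPa, hPb,
      IsEquivariantPrimitive.periodHom_apply, toMul_ofMul, AddMonoidHom.zero_apply] at h2
    exact h2
  obtain ⟨hab1, hab2⟩ := pi_core N (f + g) (f - g) Fa Fb ha hb hper
  have hf : f = 0 := by
    have : (2 : ℂ) • f = 0 := by
      have : (2 : ℂ) • f = (f + g) + (f - g) := by rw [two_smul]; abel
      rw [this, hab1, hab2, add_zero]
    exact (smul_eq_zero.mp this).resolve_left two_ne_zero
  have hg : g = 0 := by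
    rw [hf, zero_add] at hab1
    exact hab1
  rw [hf, hg]
  rfl

end Fermat.Agent.S21
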