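/-
M3 part B (S20/S21), block (E): the Eichler primitive in weight 2.  Every `f ∈ S₂(Γ₀(N))` has a
unique primitive `F` (`F' = f`, `F → 0` at `i∞`), it is `Γ₀(N)`-equivariant up to constants and
all its `SL(2,ℤ)`-translates have limits at `i∞`; hence `ModularCurve.periodMap N` is the period
homomorphism of this primitive, and it is `ℂ`-linear in `f`.
-/
import Mathlib
import Fermat.Prelude.Def_ModularCurve_PeriodHomPair
import Fermat.Agent.S22.PrimitiveCusp

set_option autoImplicit false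
set_option linter.unusedSectionVars false

namespace Fermat.Agent.S21

open UpperHalfPlane hiding I
open Complex Filter Function Derivative CongruenceSubgroup ModularCurve ModularCurve.Period
open scoped Real Manifold Topology MatrixGroups ModularForm
open Fermat.Agent.S22

/-! ### Generalities on primitives on `ℍ` -/

theorem s21_hasDerivAt_of_D_eq {u g : ℍ → ℂ} (hu : MDiff u) (hD : D u = g) (τ : ℍ) :
    HasDerivAt (u ∘ ofComplex) (2 * π * I * g τ) τ := by
  have hd : DifferentiableAt ℂ (u ∘ ofComplex) τ :=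
    (UpperHalfPlane.mdifferentiable_iff.mp hu).differentiableAt
      (isOpen_upperHalfPlaneSet.mem_nhds τ.im_pos)
  have h1 := hd.hasDerivAt
  have h2 : deriv (u ∘ ofComplex) τ = 2 * π * I * g τ := by
    have h3 := congrFun hD τ
    simp only [normalizedDerivOfComplex] at h3
    rw [← h3]
    have : (2 * (π : ℂ) * I) ≠ 0 := Complex.two_pi_I_ne_zero
    field_simp
  rwa [h2] at h1

/-- a function on `ℍ` with vanishing derivative is constant -/
theorem s21_const_of_hasDerivAt_zero {G : ℍ → ℂ}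
    (hG : ∀ τ : ℍ, HasDerivAt (G ∘ ofComplex) 0 τ) (τ τ' : ℍ) : G τ = G τ' := by
  have hdiff : DifferentiableOn ℂ (G ∘ ofComplex) upperHalfPlaneSet := fun z hz =>
    (hG ⟨z, hz⟩).differentiableAt.differentiableWithinAt
  have hderiv : upperHalfPlaneSet.EqOn (deriv (G ∘ ofComplex)) 0 := fun z hz =>
    (hG ⟨z, hz⟩).deriv
  have := isOpen_upperHalfPlaneSet.is_const_of_deriv_eq_zero isPreconnected_upperHalfPlaneSet
    hdiff hderiv (x := (τ : ℂ)) (y := (τ' : ℂ)) τ.im_pos τ'.im_pos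
  simpa [comp_apply, ofComplex_apply] using this

theorem s21_slash_zero_apply (u : ℍ → ℂ) (γ : SL(2, ℤ)) (z : ℍ) :
    (u ∣[(0 : ℤ)] γ) z = u (γ • z) := by
  rw [ModularForm.SL_slash_apply]
  simp

/-! ### The canonical primitive of a weight 2 cusp form -/

variable {N : ℕ} [NeZero N]

theorem s21_isCuspPeriodic (f : CuspForm (Gamma0 N) 2) : IsCuspPeriodic 1 (f : ℍ → ℂ) := by
  refine isCuspPeriodic_of_cuspFormClass f one_pos ?_
  rw [CongruenceSubgroup.strictPeriods_Gamma0]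
  exact AddSubgroup.mem_zmultiples 1

/-- the normalised Eichler integral `u` of `f`: `D u = f`, `u → 0` at `i∞` -/
noncomputable def s21_u (f : CuspForm (Gamma0 N) 2) : ℍ → ℂ := eichlerInt 1 1 (f : ℍ → ℂ)

theorem s21_u_isCuspPeriodic (f : CuspForm (Gamma0 N) 2) : IsCuspPeriodic 1 (s21_u f) :=
  eichlerInt_isCuspPeriodic one_pos 1 (s21_isCuspPeriodic f)

theorem s21_D_u (f : CuspForm (Gamma0 N) 2) : D (s21_u f) = f := by
  have := iterate_D_eichlerInt one_pos 1 (s21_isCuspPeriodic f)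
  simpa [s21_u] using this

/-- **the Eichler primitive** of `f ∈ S₂(Γ₀(N))`: `F' = f`, `F → 0` at `i∞` -/
noncomputable def s21_prim (f : CuspForm (Gamma0 N) 2) : ℍ → ℂ := (2 * π * I)⁻¹ • s21_u f

theorem s21_prim_apply (f : CuspForm (Gamma0 N) 2) (z : ℍ) :
    s21_prim f z = (2 * π * I)⁻¹ * s21_u f z := rfl

theorem s21_prim_hasDerivAt (f : CuspForm (Gamma0 N) 2) (τ : ℍ) :
    HasDerivAt (s21_prim f ∘ ofComplex) (f τ) τ := by
  have h1 := (s21_hasDerivAt_of_D_eq (s21_u_isCuspPeriodic f).1 (s21_D_u f) τ).const_mul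
    ((2 * π * I)⁻¹)
  have h2 : (2 * (π : ℂ) * I)⁻¹ * (2 * π * I * f τ) = f τ := by
    have : (2 * (π : ℂ) * I) ≠ 0 := Complex.two_pi_I_ne_zero
    field_simp
  rw [h2] at h1
  exact h1

theorem s21_prim_tendsto (f : CuspForm (Gamma0 N) 2) : Tendsto (s21_prim f) atImInfty (𝓝 0) := by
  have h1 : Tendsto (s21_u f) atImInfty (𝓝 0) := (s21_u_isCuspPeriodic f).2.2
  have h2 := h1.const_mul ((2 * π * I)⁻¹)
  rw [mul_zero] at h2
  exact h2

theorem s21_slash_two (f : CuspForm (Gamma0 N) 2) (γ : SL(2, ℤ)) (hγ : γ ∈ Gamma0 N) :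
    (f : ℍ → ℂ) ∣[(2 : ℤ)] γ = f := by
  rw [ModularForm.SL_slash]
  exact SlashInvariantFormClass.slash_action_eq f _ (Subgroup.mem_map_of_mem _ hγ)

/-- equivariance of `u` -/
theorem s21_u_smul_sub (f : CuspForm (Gamma0 N) 2) (γ : SL(2, ℤ)) (hγ : γ ∈ Gamma0 N) :
    ∃ c : ℂ, ∀ z : ℍ, s21_u f (γ • z) - s21_u f z = c := by
  have hf : (f : ℍ → ℂ) ∣[(1 + (1 : ℕ) : ℤ)] γ = f := by
    have : (1 + ((1 : ℕ) : ℤ)) = 2 := by norm_num
    rw [this]
    exact s21_slash_two f γ hγ
  obtain ⟨p, hp, hpz⟩ := exists_polynomial_slash_sub (s21_u_isCuspPeriodic f).1 1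
    (by simpa using s21_D_u f) γ hf
  rw [Polynomial.mem_degreeLT] at hp
  have hp' : p.degree ≤ 0 := by
    have h1 : p.degree < (1 : ℕ) := hp
    by_cases hp0 : p = 0
    · rw [hp0]; simp
    · rw [Polynomial.degree_eq_natDegree hp0] at h1 ⊢
      have : p.natDegree < 1 := by exact_mod_cast h1
      have : p.natDegree = 0 := by omega
      rw [this]; rfl
  refine ⟨p.coeff 0, fun z => ?_⟩
  have h1 := hpz z
  rw [Polynomial.eq_C_of_degree_le_zero hp', Polynomial.eval_C] at h1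
  rw [← h1, Pi.sub_apply]
  have h0 : (1 - ((1 : ℕ) : ℤ)) = 0 := by norm_num
  rw [h0, s21_slash_zero_apply]

theorem s21_prim_isEquivariantPrimitive (f : CuspForm (Gamma0 N) 2) :
    IsEquivariantPrimitive (Gamma0 N) (s21_prim f) := by
  intro γ
  obtain ⟨c, hc⟩ := s21_u_smul_sub f γ γ.2
  refine ⟨(2 * π * I)⁻¹ * c, fun z => ?_⟩
  rw [s21_prim_apply, s21_prim_apply, ← mul_sub, hc z]

/-- limits of the translates at `i∞` -/
theorem s21_u_tendsto_smul (f : CuspForm (Gamma0 N) 2) (δ : SL(2, ℤ)) :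
    ∃ L : ℂ, Tendsto (fun w : ℍ => s21_u f (δ • w)) atImInfty (𝓝 L) := by
  obtain ⟨M, hM, hper⟩ := exists_period_slash (Γ := ((Gamma0 N : Subgroup SL(2, ℤ)) :
    Subgroup (GL (Fin 2) ℝ))) (k := 2) f
  have hMpos : (0 : ℝ) < M := by exact_mod_cast hM
  obtain ⟨v, hv, hDv⟩ := exists_primitive hMpos (hper δ)
  have hu := (s21_u_isCuspPeriodic f).1
  have hu' : MDiff (s21_u f ∣[(0 : ℤ)] δ) := by
    rw [ModularForm.SL_slash]; exact hu.slash _ _
  have hbol := bol_identity_SL hu 1 δ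
  have h0 : (1 - ((1 : ℕ) : ℤ)) = 0 := by norm_num
  have h2 : (1 + ((1 : ℕ) : ℤ)) = 2 := by norm_num
  rw [h0, h2] at hbol
  simp only [Function.iterate_one] at hbol
  rw [s21_D_u] at hbol
  have hD0 : D (s21_u f ∣[(0 : ℤ)] δ - v) = 0 := by
    rw [normalizedDerivOfComplex_sub _ _ hu' hv.1, hbol, hDv, sub_self]
  refine ⟨(s21_u f ∣[(0 : ℤ)] δ - v) UpperHalfPlane.I, ?_⟩
  have hconst : ∀ w : ℍ, s21_u f (δ • w) = v w + (s21_u f ∣[(0 : ℤ)] δ - v) UpperHalfPlane.I := by
    intro w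
    have := const_of_D_eq_zero (hu'.sub hv.1) hD0 w UpperHalfPlane.I
    rw [Pi.sub_apply, s21_slash_zero_apply] at this
    rw [← this]
    ring
  have hv0 : Tendsto v atImInfty (𝓝 0) := hv.2.2
  have := hv0.add_const ((s21_u f ∣[(0 : ℤ)] δ - v) UpperHalfPlane.I)
  rw [zero_add] at this
  exact this.congr fun w => (hconst w).symm

/-- **existence of the equivariant primitive** -/
theorem s21_hasEquivariantPrimitive (f : CuspForm (Gamma0 N) 2) :
    HasEquivariantPrimitive N f (s21_prim f) := by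
  refine ⟨s21_prim_hasDerivAt f, s21_prim_tendsto f, s21_prim_isEquivariantPrimitive f, fun δ => ?_⟩
  obtain ⟨L, hL⟩ := s21_u_tendsto_smul f δ
  exact ⟨(2 * π * I)⁻¹ * L, hL.const_mul _⟩

/-- **uniqueness of the equivariant primitive** -/
theorem s21_prim_unique (f : CuspForm (Gamma0 N) 2) {F : ℍ → ℂ}
    (hF : HasEquivariantPrimitive N f F) : F = s21_prim f := by
  have hG : ∀ τ : ℍ, HasDerivAt ((F - s21_prim f) ∘ ofComplex) 0 τ := by
    intro τ
    have := (hF.1 τ).sub (s21_prim_hasDerivAt f τ)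
    rw [sub_self] at this
    exact this
  ext τ
  have hconst : ∀ τ' : ℍ, (F - s21_prim f) τ' = (F - s21_prim f) τ := fun τ' =>
    s21_const_of_hasDerivAt_zero hG τ' τ
  have h1 : Tendsto (F - s21_prim f) atImInfty (𝓝 0) := by
    have := hF.2.1.sub (s21_prim_tendsto f)
    rwa [sub_zero] at this
  have h2 : Tendsto (F - s21_prim f) atImInfty (𝓝 ((F - s21_prim f) τ)) :=
    tendsto_const_nhds.congr fun τ' => (hconst τ').symm
  have h3 := tendsto_nhds_unique h2 h1
  rw [Pi.sub_apply, sub_eq_zero] at h3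
  exact h3

/-! ### The period map -/

theorem s21_periodMap_apply (f : CuspForm (Gamma0 N) 2) (γ : Gamma0 N) (z : ℍ) :
    periodMap N f (Additive.ofMul γ) = s21_prim f ((γ : SL(2, ℤ)) • z) - s21_prim f z := by
  obtain ⟨F₀, h₀, hpm⟩ := periodMap_def N f (s21_hasEquivariantPrimitive f)
  rw [hpm, IsEquivariantPrimitive.periodHom_apply, ← h₀.2.2.1.sub_eq_period γ z,
    s21_prim_unique f h₀]

theorem s21_prim_add (f g : CuspForm (Gamma0 N) 2) : s21_prim (f + g) = s21_prim f + s21_prim g := by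
  have h : s21_u (f + g) = s21_u f + s21_u g := by
    rw [s21_u, FunLike.coe_add]
    exact eichlerInt_add one_pos 1 (s21_isCuspPeriodic f) (s21_isCuspPeriodic g)
  rw [s21_prim, h, smul_add]
  rfl

theorem s21_prim_smul (c : ℂ) (f : CuspForm (Gamma0 N) 2) : s21_prim (c • f) = c • s21_prim f := by
  have h : s21_u (c • f) = c • s21_u f := by
    rw [s21_u, FunLike.coe_smul]
    exact eichlerInt_smul one_pos 1 c (s21_isCuspPeriodic f)
  rw [s21_prim, h, smul_comm]
  rfl

/-- the period map as a linear map -/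
noncomputable def s21_periodLin (N : ℕ) [NeZero N] :
    CuspForm (Gamma0 N) 2 →ₗ[ℂ] (Additive (Gamma0 N) →+ ℂ) where
  toFun f := periodMap N f
  map_add' f g := by
    refine AddMonoidHom.ext fun γ => ?_
    obtain ⟨γ, rfl⟩ := Additive.ofMul.surjective γ
    rw [AddMonoidHom.add_apply, s21_periodMap_apply _ γ UpperHalfPlane.I,
      s21_periodMap_apply _ γ UpperHalfPlane.I, s21_periodMap_apply _ γ UpperHalfPlane.I,
      s21_prim_add]
    simp only [Pi.add_apply]
    ring
  map_smul' c f := by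
    refine AddMonoidHom.ext fun γ => ?_
    obtain ⟨γ, rfl⟩ := Additive.ofMul.surjective γ
    rw [RingHom.id_apply, AddMonoidHom.smul_apply, s21_periodMap_apply _ γ UpperHalfPlane.I,
      s21_periodMap_apply _ γ UpperHalfPlane.I, s21_prim_smul]
    simp only [Pi.smul_apply, smul_eq_mul]
    ring

theorem s21_periodLin_apply (f : CuspForm (Gamma0 N) 2) : s21_periodLin N f = periodMap N f := rfl

theorem s21_existsPeriodMapLinear (N : ℕ) [NeZero N] : ExistsPeriodMapLinear N :=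
  ⟨s21_periodLin N, fun _ => rfl⟩

end Fermat.Agent.S21
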