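/-
M3 part B (S20/S21), block (R): periods of weight 2 cusp forms vanish on parabolic elements, hence
the image of `ModularCurve.periodHomPair N` consists of parabolic homomorphisms.
-/
import Mathlib
import Fermat.Agent.S21.Primitive

set_option autoImplicit false
set_option linter.unusedSectionVars false

namespace Fermat.Agent.S21

open UpperHalfPlane hiding I
open Complex Filter Function CongruenceSubgroup ModularCurve ModularCurve.Period
open scoped Real Manifold Topology MatrixGroups ModularForm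
open Fermat.Agent.S22

/-! ### Elements of trace `2` are conjugate to powers of `T` -/

/-- an eigenvector for the eigenvalue `1` -/
theorem s21_exists_fixed_vector (a b c d : ℤ) (hdet : a * d - b * c = 1) (htr : a + d = 2) :
    ∃ x y : ℤ, IsCoprime x y ∧ a * x + b * y = x ∧ c * x + d * y = y := by
  by_cases hb : b = 0
  · -- then `a = d = 1`
    have ha : a = 1 := by
      have h1 : a * d = 1 := by rw [hb] at hdet; linarith
      have h2 : d = 2 - a := by linarith
      rw [h2] at h1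
      have : (a - 1) ^ 2 = 0 := by nlinarith
      have := pow_eq_zero_iff (two_ne_zero) |>.mp this
      linarith
    have hd : d = 1 := by linarith
    exact ⟨0, 1, isCoprime_zero_left.mpr isUnit_one, by rw [hb]; ring, by rw [hd]; ring⟩
  · set m := a - 1 with hm
    have hbc : b * c = -m ^ 2 := by
      have h2 : d = 1 - m := by rw [hm]; linarith
      have h3 : a = 1 + m := by rw [hm]; ring
      rw [h2, h3] at hdet
      linarith [hdet]
    have hg0 : Int.gcd b m ≠ 0 := by
      intro h0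
      exact hb (Int.gcd_eq_zero_iff.mp h0).1
    obtain ⟨x, hx⟩ : ((Int.gcd b m : ℕ) : ℤ) ∣ b := Int.gcd_dvd_left _ _
    obtain ⟨y, hy⟩ : ((Int.gcd b m : ℕ) : ℤ) ∣ m := Int.gcd_dvd_right _ _
    have hgne : ((Int.gcd b m : ℕ) : ℤ) ≠ 0 := by exact_mod_cast hg0
    have hcop : IsCoprime x y := by
      have hb' := Int.gcd_eq_gcd_ab b m
      refine ⟨Int.gcdA b m, Int.gcdB b m, ?_⟩
      have h3 : ((Int.gcd b m : ℕ) : ℤ) * (Int.gcdA b m * x + Int.gcdB b m * y) =
          ((Int.gcd b m : ℕ) : ℤ) * 1 := by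
        calc _ = (((Int.gcd b m : ℕ) : ℤ) * x) * Int.gcdA b m
              + (((Int.gcd b m : ℕ) : ℤ) * y) * Int.gcdB b m := by ring
          _ = b * Int.gcdA b m + m * Int.gcdB b m := by rw [← hx, ← hy]
          _ = _ := by rw [← hb', mul_one]
      exact mul_left_cancel₀ hgne h3
    refine ⟨x, -y, hcop.neg_right, ?_, ?_⟩
    · -- `m x - b y = 0`
      have h4 : ((Int.gcd b m : ℕ) : ℤ) * ((a - 1) * x + b * (-y)) = 0 := by
        calc _ = m * (((Int.gcd b m : ℕ) : ℤ) * x) - b * (((Int.gcd b m : ℕ) : ℤ) * y) := by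
              rw [hm]; ring
          _ = 0 := by rw [← hx, ← hy]; ring
      have := (mul_eq_zero.mp h4).resolve_left hgne
      linarith
    · -- `c x + m y = 0`
      have hd1 : d - 1 = -m := by rw [hm]; linarith
      have h4 : ((Int.gcd b m : ℕ) : ℤ) * (c * x + (d - 1) * (-y)) = 0 := by
        calc _ = c * (((Int.gcd b m : ℕ) : ℤ) * x) + m * (((Int.gcd b m : ℕ) : ℤ) * y) := by
              rw [hd1]; ring
          _ = c * b + m * m := by rw [← hx, ← hy]
          _ = 0 := by rw [mul_comm c b, hbc]; ring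
      have := (mul_eq_zero.mp h4).resolve_left hgne
      linarith

/-- an explicit element of `SL(2,ℤ)` -/
def s21_mkSL (a b c d : ℤ) (h : a * d - b * c = 1) : SL(2, ℤ) :=
  ⟨!![a, b; c, d], by rw [Matrix.det_fin_two_of]; exact h⟩

@[simp] theorem s21_mkSL_val (a b c d : ℤ) (h : a * d - b * c = 1) :
    ((s21_mkSL a b c d h : SL(2, ℤ)) : Matrix (Fin 2) (Fin 2) ℤ) = !![a, b; c, d] := rfl

theorem s21_det_eq (γ : SL(2, ℤ)) : γ 0 0 * γ 1 1 - γ 0 1 * γ 1 0 = 1 := by
  have := γ.2
  rw [Matrix.det_fin_two] at this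
  exact this

theorem s21_exists_conj_T_zpow (γ : SL(2, ℤ)) (htr : γ 0 0 + γ 1 1 = 2) :
    ∃ (δ : SL(2, ℤ)) (k : ℤ), γ * δ = δ * ModularGroup.T ^ k := by
  have hdet := s21_det_eq γ
  obtain ⟨x, y, ⟨u, v, huv⟩, h1, h2⟩ := s21_exists_fixed_vector (γ 0 0) (γ 0 1) (γ 1 0) (γ 1 1)
    hdet htr
  refine ⟨s21_mkSL x (-v) y u (by linear_combination huv),
    -γ 0 0 * u * v + γ 0 1 * u ^ 2 - γ 1 0 * v ^ 2 + γ 1 1 * u * v, ?_⟩
  apply Subtype.ext
  rw [Matrix.SpecialLinearGroup.coe_mul, Matrix.SpecialLinearGroup.coe_mul,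
    ModularGroup.coe_T_zpow]
  ext i j
  fin_cases i <;> fin_cases j
  · simp [s21_mkSL, Matrix.mul_apply, Fin.sum_univ_two]
    linear_combination h1
  · simp [s21_mkSL, Matrix.mul_apply, Fin.sum_univ_two]
    linear_combination (-v) * htr + (u * v) * h1 + (v ^ 2) * h2
      - (γ 0 1 * u - v + γ 1 1 * v) * huv
  · simp [s21_mkSL, Matrix.mul_apply, Fin.sum_univ_two]
    linear_combination h2
  · simp [s21_mkSL, Matrix.mul_apply, Fin.sum_univ_two]
    linear_combination (u) * htr - (u * v) * h2 - (u ^ 2) * h1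
      - (- γ 0 0 * u + u - γ 1 0 * v) * huv

/-! ### Vanishing of parabolic periods -/

variable {N : ℕ} [NeZero N]

theorem s21_tendsto_vadd (a : ℝ) : Tendsto (fun w : ℍ => a +ᵥ w) atImInfty atImInfty := by
  rw [atImInfty, tendsto_comap_iff]
  have : (UpperHalfPlane.im ∘ fun w : ℍ => a +ᵥ w) = UpperHalfPlane.im := by
    ext w
    simp [UpperHalfPlane.vadd_im]
  rw [this]
  exact tendsto_comap

/-- if `γ` acts on the cusp `δ∞` as the translation by `k`, its period vanishes -/
theorem s21_period_eq_zero_of_conj (f : CuspForm (Gamma0 N) 2) (γ : Gamma0 N) (δ : SL(2, ℤ))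
    (k : ℤ) (h : ∀ w : ℍ, (γ : SL(2, ℤ)) • (δ • w) = δ • ((k : ℝ) +ᵥ w)) :
    periodMap N f (Additive.ofMul γ) = 0 := by
  obtain ⟨L, hL⟩ := (s21_hasEquivariantPrimitive f).2.2.2 δ
  have h1 : Tendsto (fun w : ℍ => s21_prim f (δ • ((k : ℝ) +ᵥ w))) atImInfty (𝓝 L) :=
    hL.comp (s21_tendsto_vadd (k : ℝ))
  have h2 : ∀ w : ℍ, periodMap N f (Additive.ofMul γ)
      = s21_prim f (δ • ((k : ℝ) +ᵥ w)) - s21_prim f (δ • w) := by
    intro w
    rw [s21_periodMap_apply f γ (δ • w), h w]
  have h3 : Tendsto (fun _ : ℍ => periodMap N f (Additive.ofMul γ)) atImInfty (𝓝 (L - L)) :=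
    (h1.sub hL).congr fun w => (h2 w).symm
  have h4 := tendsto_nhds_unique tendsto_const_nhds h3
  rw [sub_self] at h4
  exact h4

/-- **periods vanish on parabolic elements** -/
theorem s21_periodMap_mem_parabolicHoms (f : CuspForm (Gamma0 N) 2) :
    periodMap N f ∈ parabolicHoms ℂ (Gamma0 N) ℂ := by
  rw [mem_parabolicHoms_iff]
  intro γ hγ
  rw [Matrix.trace_fin_two] at hγ
  have htr : (γ : SL(2, ℤ)) 0 0 + (γ : SL(2, ℤ)) 1 1 = 2 ∨
      (γ : SL(2, ℤ)) 0 0 + (γ : SL(2, ℤ)) 1 1 = -2 := by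
    have h0 : ((γ : SL(2, ℤ)) 0 0 + (γ : SL(2, ℤ)) 1 1 - 2) *
        ((γ : SL(2, ℤ)) 0 0 + (γ : SL(2, ℤ)) 1 1 + 2) = 0 := by
      linear_combination hγ
    rcases mul_eq_zero.mp h0 with h | h
    · left; linarith
    · right; linarith
  rcases htr with h | h
  · obtain ⟨δ, k, hδ⟩ := s21_exists_conj_T_zpow (γ : SL(2, ℤ)) h
    refine s21_period_eq_zero_of_conj f γ δ k fun w => ?_
    rw [← mul_smul, hδ, mul_smul, UpperHalfPlane.modular_T_zpow_smul]
  · obtain ⟨δ, k, hδ⟩ := s21_exists_conj_T_zpow (-(γ : SL(2, ℤ))) (by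
      simp only [Matrix.SpecialLinearGroup.coe_neg, Matrix.neg_apply]
      linarith)
    refine s21_period_eq_zero_of_conj f γ δ k fun w => ?_
    have h5 : (γ : SL(2, ℤ)) • (δ • w) = (-(γ : SL(2, ℤ))) • (δ • w) :=
      (ModularGroup.SL_neg_smul _ _).symm
    rw [h5, ← mul_smul, hδ, mul_smul, UpperHalfPlane.modular_T_zpow_smul]

/-! ### The pair map -/

theorem s21_periodHomPair_apply (f g : CuspForm (Gamma0 N) 2) :
    periodHomPair N (f, g) = (periodMap N f + charInvolution N ℂ ℂ (periodMap N f))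
      + (periodMap N g - charInvolution N ℂ ℂ (periodMap N g)) := by
  obtain ⟨pml, hpml, hdef⟩ := periodHomPair_def N (s21_existsPeriodMapLinear N)
  rw [hdef, LinearMap.coprod_apply]
  simp only [LinearMap.comp_apply, LinearMap.add_apply, LinearMap.sub_apply, LinearMap.id_apply,
    hpml]

/-- **the image of the pair map consists of parabolic homomorphisms** -/
theorem s21_range_periodHomPair_le :
    LinearMap.range (periodHomPair N) ≤ parabolicHoms ℂ (Gamma0 N) ℂ := by
  rintro φ ⟨⟨f, g⟩, rfl⟩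
  rw [s21_periodHomPair_apply]
  have hf := s21_periodMap_mem_parabolicHoms f
  have hg := s21_periodMap_mem_parabolicHoms g
  exact Submodule.add_mem _
    (Submodule.add_mem _ hf (charInvolution_mem_parabolicHoms N ℂ ℂ hf))
    (Submodule.sub_mem _ hg (charInvolution_mem_parabolicHoms N ℂ ℂ hg))

end Fermat.Agent.S21
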