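import Mathlib

set_option autoImplicit false

/-!
# Permutation modules: kernels of norm operators

For a group `G` acting on a finite type `X`, a field `k` of characteristic zero, `σ : G` and
`d ≠ 0` with `σ ^ d` acting trivially, the operator `normOp k σ d m x = ∑_{j<d} m (σ ^ j • x)` on
`X → k` has kernel of dimension `#X - #(orbits of ⟨σ⟩)`.  If `σ, τ` generate `G` and the action is
transitive, the two kernels span a subspace of codimension at most one.
-/

namespace Fermat.Agent.S21

open MulAction Module

section PermModule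

variable {G X : Type*} [Group G] [MulAction G X] (k : Type*) [Field k]

/-- `(normOp k σ d m) x = ∑_{j<d} m (σ ^ j • x)`. -/
noncomputable def normOp (σ : G) (d : ℕ) : (X → k) →ₗ[k] (X → k) :=
  ∑ j ∈ Finset.range d, LinearMap.funLeft k k (fun x : X => σ ^ j • x)

theorem normOp_apply (σ : G) (d : ℕ) (m : X → k) (x : X) :
    normOp k σ d m x = ∑ j ∈ Finset.range d, m (σ ^ j • x) := by
  simp [normOp, LinearMap.sum_apply, Finset.sum_apply, LinearMap.funLeft_apply]

variable {k}

theorem sum_shift {σ : G} {d : ℕ} (hd : ∀ x : X, σ ^ d • x = x) (m : X → k) (x : X) :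
    ∑ j ∈ Finset.range d, m (σ ^ (j + 1) • x) = ∑ j ∈ Finset.range d, m (σ ^ j • x) := by
  have h1 := Finset.sum_range_succ (fun j => m (σ ^ j • x)) d
  have h2 := Finset.sum_range_succ' (fun j => m (σ ^ j • x)) d
  rw [h1] at h2
  simp only [pow_zero, one_smul, hd] at h2
  exact (add_right_cancel h2).symm

theorem normOp_smul {σ : G} {d : ℕ} (hd : ∀ x : X, σ ^ d • x = x) (m : X → k) (x : X) :
    normOp k σ d m (σ • x) = normOp k σ d m x := by
  rw [normOp_apply, normOp_apply, ← sum_shift hd m x]
  refine Finset.sum_congr rfl (fun j _ => ?_)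
  rw [← mul_smul, ← pow_succ]

theorem normOp_comp_smul {σ : G} {d : ℕ} (hd : ∀ x : X, σ ^ d • x = x) (m : X → k) :
    normOp k σ d (fun x => m (σ • x)) = normOp k σ d m := by
  funext x
  rw [normOp_apply, normOp_apply, ← sum_shift hd m x]
  refine Finset.sum_congr rfl (fun j _ => ?_)
  rw [← mul_smul, ← pow_succ']

/-- A function invariant under `σ` is invariant under `⟨σ⟩`. -/
theorem invariant_of_mem_zpowers {α : Type*} {f : X → α} {σ : G} (h : ∀ x, f (σ • x) = f x)
    {g : G} (hg : g ∈ Subgroup.zpowers σ) (x : X) : f (g • x) = f x := by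
  have key : ∀ n : ℤ, ∀ x : X, f (σ ^ n • x) = f x := by
    intro n
    induction n using Int.induction_on with
    | zero => intro x; simp
    | succ n ih =>
      intro x
      rw [zpow_add_one, mul_smul, ih, h]
    | pred n ih =>
      intro x
      rw [zpow_sub_one, mul_smul, ih]
      have := h (σ⁻¹ • x)
      rw [smul_inv_smul] at this
      exact this.symm
  obtain ⟨n, rfl⟩ := Subgroup.mem_zpowers_iff.mp hg
  exact key n x

/-- The orbit map. -/
def orbMk (σ : G) : X → orbitRel.Quotient (Subgroup.zpowers σ) X :=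
  Quotient.mk (orbitRel (Subgroup.zpowers σ) X)

theorem orbMk_surjective (σ : G) : Function.Surjective (orbMk (X := X) σ) :=
  Quotient.mk_surjective

theorem orbMk_smul_pow (σ : G) (j : ℕ) (x : X) : orbMk σ (σ ^ j • x) = orbMk σ x := by
  apply Quotient.sound
  change (orbitRel _ X) (σ ^ j • x) x
  rw [orbitRel_apply]
  exact ⟨⟨σ ^ j, Subgroup.npow_mem_zpowers σ j⟩, rfl⟩

theorem range_normOp [CharZero k] {σ : G} {d : ℕ} (hd0 : d ≠ 0) (hd : ∀ x : X, σ ^ d • x = x) :
    LinearMap.range (normOp k σ d)
      = LinearMap.range (LinearMap.funLeft k k (orbMk (X := X) σ)) := by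
  apply le_antisymm
  · rintro _ ⟨m, rfl⟩
    have hinv : ∀ {g : G} (_ : g ∈ Subgroup.zpowers σ) (x : X),
        normOp k σ d m (g • x) = normOp k σ d m x :=
      fun hg x => invariant_of_mem_zpowers (normOp_smul hd m) hg x
    refine ⟨Quotient.lift (normOp k σ d m) (fun a b hab => ?_), ?_⟩
    · change (orbitRel _ X) a b at hab
      rw [orbitRel_apply] at hab
      obtain ⟨⟨g, hg⟩, rfl⟩ := hab
      exact hinv hg b
    · funext x
      rfl
  · rintro _ ⟨f, rfl⟩
    refine ⟨fun x => (d : k)⁻¹ * f (orbMk σ x), ?_⟩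
    funext x
    rw [normOp_apply]
    simp only [orbMk_smul_pow, Finset.sum_const, Finset.card_range, nsmul_eq_mul,
      LinearMap.funLeft_apply]
    have : (d : k) ≠ 0 := Nat.cast_ne_zero.mpr hd0
    field_simp

/-- `dim ker (normOp σ d) + #orbits = #X`. -/
theorem finrank_ker_normOp_add [CharZero k] [Finite X] {σ : G} {d : ℕ} (hd0 : d ≠ 0)
    (hd : ∀ x : X, σ ^ d • x = x) :
    finrank k (LinearMap.ker (normOp (X := X) k σ d))
      + Nat.card (orbitRel.Quotient (Subgroup.zpowers σ) X) = Nat.card X := by
  classical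
  have : Fintype X := Fintype.ofFinite X
  have : Fintype (orbitRel.Quotient (Subgroup.zpowers σ) X) := Fintype.ofFinite _
  have h1 := LinearMap.finrank_range_add_finrank_ker (normOp (X := X) k σ d)
  rw [range_normOp hd0 hd,
    LinearMap.finrank_range_of_inj
      (LinearMap.funLeft_injective_of_surjective k k _ (orbMk_surjective (X := X) σ)),
    Module.finrank_fintype_fun_eq_card, Module.finrank_fintype_fun_eq_card] at h1
  rw [Nat.card_eq_fintype_card, Nat.card_eq_fintype_card]
  omega

theorem single_sub_single_mem_ker [DecidableEq X] {σ : G} {d : ℕ} (hd : ∀ x : X, σ ^ d • x = x)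
    (x : X) :
    (Pi.single x (1 : k) - Pi.single (σ • x) (1 : k) : X → k) ∈ LinearMap.ker (normOp k σ d) := by
  rw [LinearMap.mem_ker, map_sub, sub_eq_zero]
  have h : (fun y => (Pi.single (σ • x) (1 : k) : X → k) (σ • y)) = Pi.single x (1 : k) := by
    funext y
    by_cases hy : y = x
    · subst hy; simp
    · rw [Pi.single_eq_of_ne hy, Pi.single_eq_of_ne]
      intro h
      exact hy (smul_left_cancel σ h)
  rw [← h, normOp_comp_smul hd]

/-- If `σ, τ` generate `G` and `G` acts transitively, then every function is, modulo the two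
kernels, a multiple of `δ_{x₀}`. -/
theorem top_le_ker_sup_ker_sup_span [DecidableEq X] [Finite X] [IsPretransitive G X] {σ τ : G}
    (hgen : Subgroup.closure {σ, τ} = ⊤) {d e : ℕ} (hd : ∀ x : X, σ ^ d • x = x)
    (he : ∀ x : X, τ ^ e • x = x) (x₀ : X) :
    (⊤ : Submodule k (X → k)) ≤
      (LinearMap.ker (normOp (X := X) k σ d) ⊔ LinearMap.ker (normOp (X := X) k τ e))
        ⊔ Submodule.span k {(Pi.single x₀ (1 : k) : X → k)} := by
  classical
  have : Fintype X := Fintype.ofFinite X
  set K := LinearMap.ker (normOp (X := X) k σ d) ⊔ LinearMap.ker (normOp (X := X) k τ e) with hK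
  have key : ∀ g : G, ∀ x : X, (Pi.single x (1 : k) - Pi.single (g • x) (1 : k) : X → k) ∈ K := by
    intro g
    have hg : g ∈ Subgroup.closure {σ, τ} := by rw [hgen]; trivial
    induction hg using Subgroup.closure_induction with
    | mem y hy =>
      intro x
      rcases hy with rfl | rfl
      · exact Submodule.mem_sup_left (single_sub_single_mem_ker hd x)
      · exact Submodule.mem_sup_right (single_sub_single_mem_ker he x)
    | one => intro x; simp
    | mul a b _ _ iha ihb =>
      intro x
      have := K.add_mem (ihb x) (iha (b • x))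
      rw [mul_smul]
      convert this using 1
      abel
    | inv a _ iha =>
      intro x
      have := K.neg_mem (iha (a⁻¹ • x))
      rw [smul_inv_smul] at this
      convert this using 1
      abel
  intro m _
  have hm : m = ∑ x, m x • (Pi.single x (1 : k) : X → k) := by
    funext y
    simp [Finset.sum_apply, Pi.single_apply]
  rw [hm]
  refine Submodule.sum_mem _ (fun x _ => Submodule.smul_mem _ _ ?_)
  obtain ⟨g, rfl⟩ := MulAction.exists_smul_eq G x₀ x
  have h1 := key g x₀
  have : (Pi.single (g • x₀) (1 : k) : X → k)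
      = Pi.single x₀ (1 : k) - (Pi.single x₀ (1 : k) - Pi.single (g • x₀) (1 : k)) := by abel
  rw [this]
  exact Submodule.sub_mem _ (Submodule.mem_sup_right (Submodule.mem_span_singleton_self _))
    (Submodule.mem_sup_left h1)

theorem card_le_finrank_sup_add_one [Finite X] [IsPretransitive G X] {σ τ : G}
    (hgen : Subgroup.closure {σ, τ} = ⊤) {d e : ℕ} (hd : ∀ x : X, σ ^ d • x = x)
    (he : ∀ x : X, τ ^ e • x = x) (x₀ : X) :
    Nat.card X ≤
      finrank k ↥(LinearMap.ker (normOp (X := X) k σ d)
        ⊔ LinearMap.ker (normOp (X := X) k τ e)) + 1 := by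
  classical
  have : Fintype X := Fintype.ofFinite X
  have h := top_le_ker_sup_ker_sup_span (k := k) hgen hd he x₀
  have h2 := Submodule.finrank_mono h
  rw [finrank_top, Module.finrank_fintype_fun_eq_card] at h2
  have h3 := Submodule.finrank_add_le_finrank_add_finrank
    (LinearMap.ker (normOp (X := X) k σ d) ⊔ LinearMap.ker (normOp (X := X) k τ e))
    (Submodule.span k {(Pi.single x₀ (1 : k) : X → k)})
  have h4 : finrank k (Submodule.span k {(Pi.single x₀ (1 : k) : X → k)}) ≤ 1 := by
    have := finrank_span_le_card (R := k) ({(Pi.single x₀ (1 : k) : X → k)} : Set (X → k))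
    simpa using this
  rw [Nat.card_eq_fintype_card]
  omega

end PermModule

end Fermat.Agent.S21
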