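import Mathlib
import Fermat.Prelude.Def_ModularCurve_PeriodMap
import Fermat.Prelude.Def_ModularCurve_GenusNumerics
import Fermat.Agent.S21.PermModule
import Fermat.Agent.S24.Comb.GenusCount
import Fermat.Agent.S24.Comb.Transport

set_option autoImplicit false

/-!
# The space of parabolic homomorphisms `Γ₀(N) → ℂ` has dimension at most `2 g`

Cocycle-free version of "Shapiro + Mayer–Vietoris for `PSL(2, ℤ) = C₂ * C₃`".
-/

namespace Fermat.Agent.S21

open CongruenceSubgroup ModularGroup MulAction Module ModularCurve ModularCurve.Period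
open Fermat.Agent.S24.Comb
open scoped MatrixGroups

variable (N : ℕ)

theorem out_inv_mul_mem (g : SL(2, ℤ)) : ((g : Q N).out)⁻¹ * g ∈ Gamma0 N := by
  obtain ⟨h, hh⟩ := QuotientGroup.mk_out_eq_mul (Gamma0 N) g
  rw [hh, mul_inv_rev, inv_mul_cancel_right]
  exact (Gamma0 N).inv_mem h.2

/-- A "primitive" of `φ` twisted by `m`: `prim φ m (g γ) = prim φ m g + φ γ`. -/
noncomputable def prim (φ : Additive (Gamma0 N) →+ ℂ) (m : Q N → ℂ) (g : SL(2, ℤ)) : ℂ :=
  φ (Additive.ofMul ⟨((g : Q N).out)⁻¹ * g, out_inv_mul_mem N g⟩) + m g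

theorem prim_mul_right (φ : Additive (Gamma0 N) →+ ℂ) (m : Q N → ℂ) (g : SL(2, ℤ))
    (γ : Gamma0 N) :
    prim N φ m (g * γ) = prim N φ m g + φ (Additive.ofMul γ) := by
  have hq : ((g * γ : SL(2, ℤ)) : Q N) = (g : Q N) := by
    rw [QuotientGroup.eq]
    simp
  have h2 : (⟨((((g * γ : SL(2, ℤ)) : Q N)).out)⁻¹ * (g * γ), out_inv_mul_mem N (g * γ)⟩ :
      Gamma0 N) = ⟨((g : Q N).out)⁻¹ * g, out_inv_mul_mem N g⟩ * γ := by
    apply Subtype.ext
    simp only [Subgroup.coe_mul]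
    rw [hq, mul_assoc]
  unfold prim
  rw [h2, ofMul_mul, map_add, hq]
  ring

/-- The "cocycle" `x = hΓ ↦ F (σ h) - F h`, `F = prim φ m`, as a linear map in `(φ, m)`. -/
noncomputable def coc (σ : SL(2, ℤ)) :
    ((Additive (Gamma0 N) →+ ℂ) × (Q N → ℂ)) →ₗ[ℂ] (Q N → ℂ) where
  toFun p := fun x => prim N p.1 p.2 (σ * x.out) - prim N p.1 p.2 x.out
  map_add' p q := by
    funext x
    simp only [prim, Prod.fst_add, Prod.snd_add, AddMonoidHom.add_apply, Pi.add_apply]
    ring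
  map_smul' c p := by
    funext x
    simp only [prim, Prod.smul_fst, Prod.smul_snd, AddMonoidHom.smul_apply, Pi.smul_apply,
      smul_eq_mul, RingHom.id_apply]
    ring

theorem coc_apply_mk (σ : SL(2, ℤ)) (p : (Additive (Gamma0 N) →+ ℂ) × (Q N → ℂ))
    (h : SL(2, ℤ)) :
    coc N σ p (h : Q N) = prim N p.1 p.2 (σ * h) - prim N p.1 p.2 h := by
  obtain ⟨γ, hγ⟩ := QuotientGroup.mk_out_eq_mul (Gamma0 N) h
  change prim N p.1 p.2 (σ * (h : Q N).out) - prim N p.1 p.2 (h : Q N).out = _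
  rw [hγ, ← mul_assoc, prim_mul_right, prim_mul_right]
  ring

theorem coc_mul (σ τ : SL(2, ℤ)) (p : (Additive (Gamma0 N) →+ ℂ) × (Q N → ℂ)) (x : Q N) :
    coc N (σ * τ) p x = coc N σ p (τ • x) + coc N τ p x := by
  induction x using QuotientGroup.induction_on with
  | H h =>
    rw [smul_coset, coc_apply_mk, coc_apply_mk, coc_apply_mk, mul_assoc]
    ring

theorem normOp_coc (σ : SL(2, ℤ)) (d : ℕ) (p : (Additive (Gamma0 N) →+ ℂ) × (Q N → ℂ))
    (h : SL(2, ℤ)) :
    normOp ℂ σ d (coc N σ p) (h : Q N) = prim N p.1 p.2 (σ ^ d * h) - prim N p.1 p.2 h := by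
  rw [normOp_apply]
  have : ∀ j ∈ Finset.range d, coc N σ p (σ ^ j • (h : Q N))
      = prim N p.1 p.2 (σ ^ (j + 1) * h) - prim N p.1 p.2 (σ ^ j * h) := by
    intro j _
    rw [smul_coset, coc_apply_mk, ← mul_assoc, ← pow_succ']
  rw [Finset.sum_congr rfl this, Finset.sum_range_sub (fun j => prim N p.1 p.2 (σ ^ j * h))]
  simp

theorem coc_mem_ker (σ : SL(2, ℤ)) (d : ℕ) (p : (Additive (Gamma0 N) →+ ℂ) × (Q N → ℂ))
    (hσ : ∀ h : SL(2, ℤ), ∃ γ : Gamma0 N, σ ^ d * h = h * γ ∧ p.1 (Additive.ofMul γ) = 0) :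
    coc N σ p ∈ LinearMap.ker (normOp (X := Q N) ℂ σ d) := by
  rw [LinearMap.mem_ker]
  funext x
  induction x using QuotientGroup.induction_on with
  | H h =>
    obtain ⟨γ, h1, h2⟩ := hσ h
    rw [normOp_coc, h1, prim_mul_right, h2]
    simp

theorem neg_one_mem_Gamma0 : (-1 : SL(2, ℤ)) ∈ Gamma0 N := by
  rw [Gamma0_mem]
  simp

theorem parabolic_neg_one {φ : Additive (Gamma0 N) →+ ℂ} (hφ : IsParabolicHom (Gamma0 N) φ) :
    φ (Additive.ofMul ⟨-1, neg_one_mem_Gamma0 N⟩) = 0 := by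
  apply hφ
  simp

/-- `S` and `S * T` generate `SL(2, ℤ)`. -/
theorem closure_S_ST : Subgroup.closure ({S, S * T} : Set SL(2, ℤ)) = ⊤ := by
  rw [eq_top_iff, ← SpecialLinearGroup.SL2Z_generators, Subgroup.closure_le]
  rintro g (rfl | rfl)
  · exact Subgroup.subset_closure (by simp)
  · have h1 : S ∈ Subgroup.closure ({S, S * T} : Set SL(2, ℤ)) :=
      Subgroup.subset_closure (by simp)
    have h2 : S * T ∈ Subgroup.closure ({S, S * T} : Set SL(2, ℤ)) :=
      Subgroup.subset_closure (by simp)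
    have := Subgroup.mul_mem _ (Subgroup.inv_mem _ h1) h2
    rwa [inv_mul_cancel_left] at this

/-- The conjugate `S T S⁻¹` of `T`. -/
noncomputable def Tc : SL(2, ℤ) := S * T * S⁻¹

theorem Tc_mul_S : Tc * S = S * T := by
  unfold Tc
  rw [inv_mul_cancel_right]

theorem T_pow_mem_Gamma : T ^ N ∈ Gamma N := by
  rw [Gamma_mem, ← zpow_natCast, coe_T_zpow]
  simp

theorem trace_conj (g a : SL(2, ℤ)) :
    ((g * a * g⁻¹ : SL(2, ℤ)) : Matrix (Fin 2) (Fin 2) ℤ).trace
      = (a : Matrix (Fin 2) (Fin 2) ℤ).trace := by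
  rw [Matrix.SpecialLinearGroup.coe_mul, Matrix.SpecialLinearGroup.coe_mul, Matrix.trace_mul_comm,
    ← Matrix.mul_assoc, ← Matrix.SpecialLinearGroup.coe_mul, inv_mul_cancel,
    Matrix.SpecialLinearGroup.coe_one, Matrix.one_mul]

theorem Gamma_le_Gamma0' : Gamma N ≤ Gamma0 N := by
  intro γ hγ
  rw [Gamma_mem] at hγ
  rw [Gamma0_mem]
  exact hγ.2.2.1

/-- `Tc ^ N * h = h * γ` with `γ ∈ Γ₀(N)` of trace `2`. -/
theorem Tc_pow_mul (h : SL(2, ℤ)) :
    ∃ γ : Gamma0 N, Tc ^ N * h = h * γ ∧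
      ((γ : SL(2, ℤ)) : Matrix (Fin 2) (Fin 2) ℤ).trace = 2 := by
  have hmem : h⁻¹ * Tc ^ N * h ∈ Gamma N := by
    have h1 : h⁻¹ * Tc ^ N * h = (h⁻¹ * S) * T ^ N * (h⁻¹ * S)⁻¹ := by
      unfold Tc
      rw [conj_pow]
      group
    rw [h1]
    exact (Gamma_normal N).conj_mem _ (T_pow_mem_Gamma N) _
  refine ⟨⟨h⁻¹ * Tc ^ N * h, Gamma_le_Gamma0' N hmem⟩, ?_, ?_⟩
  · simp only
    group
  · have h1 : h⁻¹ * Tc ^ N * h = (h⁻¹ * S) * T ^ N * (h⁻¹ * S)⁻¹ := by
      unfold Tc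
      rw [conj_pow]
      group
    simp only
    rw [h1, trace_conj, ← zpow_natCast, coe_T_zpow]
    simp [Matrix.trace_fin_two]

/-- The linear map `Θ (φ, m) = (c_S, c_{ST})`. -/
noncomputable def theta :
    (↥(parabolicHoms ℂ (Gamma0 N) ℂ) × (Q N → ℂ)) →ₗ[ℂ] ((Q N → ℂ) × (Q N → ℂ)) :=
  (LinearMap.prod (coc N S) (coc N (S * T))) ∘ₗ
    (LinearMap.prodMap (parabolicHoms ℂ (Gamma0 N) ℂ).subtype LinearMap.id)

theorem theta_apply (p : ↥(parabolicHoms ℂ (Gamma0 N) ℂ) × (Q N → ℂ)) :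
    theta N p = (coc N S (p.1.1, p.2), coc N (S * T) (p.1.1, p.2)) := rfl

theorem theta_fst_mem (p : ↥(parabolicHoms ℂ (Gamma0 N) ℂ) × (Q N → ℂ)) :
    (theta N p).1 ∈ LinearMap.ker (normOp (X := Q N) ℂ S 2) := by
  rw [theta_apply]
  apply coc_mem_ker
  intro h
  refine ⟨⟨-1, neg_one_mem_Gamma0 N⟩, ?_, parabolic_neg_one N p.1.2⟩
  rw [S_sq]
  simp

theorem theta_snd_mem (p : ↥(parabolicHoms ℂ (Gamma0 N) ℂ) × (Q N → ℂ)) :
    (theta N p).2 ∈ LinearMap.ker (normOp (X := Q N) ℂ (S * T) 3) := by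
  rw [theta_apply]
  apply coc_mem_ker
  intro h
  refine ⟨⟨-1, neg_one_mem_Gamma0 N⟩, ?_, parabolic_neg_one N p.1.2⟩
  rw [ST_cube]
  simp

theorem theta_sub_mem (p : ↥(parabolicHoms ℂ (Gamma0 N) ℂ) × (Q N → ℂ)) :
    (theta N p).2 - (theta N p).1 ∈
      (LinearMap.ker (normOp (X := Q N) ℂ Tc N)).map
        (LinearMap.funLeft ℂ ℂ (fun x : Q N => S • x)) := by
  refine ⟨coc N Tc (p.1.1, p.2), ?_, ?_⟩
  · apply coc_mem_ker
    intro h
    obtain ⟨γ, h1, h2⟩ := Tc_pow_mul N h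
    refine ⟨γ, h1, p.1.2 γ ?_⟩
    rw [h2]
    norm_num
  · funext x
    have := coc_mul N Tc S (p.1.1, p.2) x
    rw [Tc_mul_S] at this
    rw [theta_apply]
    simp only [LinearMap.funLeft_apply, Pi.sub_apply]
    rw [this]
    ring

theorem ker_theta_le :
    LinearMap.ker (theta N) ≤
      Submodule.span ℂ {((0 : ↥(parabolicHoms ℂ (Gamma0 N) ℂ)), (fun _ : Q N => (1 : ℂ)))} := by
  intro p hp
  rw [LinearMap.mem_ker, theta_apply, Prod.mk_eq_zero] at hp
  obtain ⟨h1, h2⟩ := hp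
  set F := prim N p.1.1 p.2 with hF
  have hS : ∀ h, F (S * h) = F h := by
    intro h
    have := congrFun h1 (h : Q N)
    rw [coc_apply_mk] at this
    exact sub_eq_zero.mp this
  have hU : ∀ h, F (S * T * h) = F h := by
    intro h
    have := congrFun h2 (h : Q N)
    rw [coc_apply_mk] at this
    exact sub_eq_zero.mp this
  have hall : ∀ g : SL(2, ℤ), ∀ h, F (g * h) = F h := by
    intro g
    have hg : g ∈ Subgroup.closure ({S, S * T} : Set SL(2, ℤ)) := by
      rw [closure_S_ST]; trivial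
    induction hg using Subgroup.closure_induction with
    | mem y hy =>
      rcases hy with rfl | rfl
      · exact hS
      · exact hU
    | one => intro h; rw [one_mul]
    | mul a b _ _ iha ihb => intro h; rw [mul_assoc, iha, ihb]
    | inv a _ iha =>
      intro h
      have := iha (a⁻¹ * h)
      rw [mul_inv_cancel_left] at this
      exact this.symm
  have hconst : ∀ g, F g = F 1 := by
    intro g
    have := hall g 1
    rwa [mul_one] at this
  have hφ : ∀ γ : Gamma0 N, p.1.1 (Additive.ofMul γ) = 0 := by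
    intro γ
    have := prim_mul_right N p.1.1 p.2 1 γ
    rw [one_mul] at this
    change F γ = F 1 + _ at this
    rw [hconst] at this
    linear_combination -this
  have hm : ∀ x : Q N, p.2 x = F 1 := by
    intro x
    induction x using QuotientGroup.induction_on with
    | H g =>
      have h3 : F g = p.2 (g : Q N) := by
        rw [hF]
        unfold prim
        rw [hφ, zero_add]
      rw [← h3, hconst]
  rw [Submodule.mem_span_singleton]
  refine ⟨F 1, ?_⟩
  apply Prod.ext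
  · apply Subtype.ext
    apply AddMonoidHom.ext
    intro γ
    change (F 1 • (0 : ↥(parabolicHoms ℂ (Gamma0 N) ℂ))).1 γ = p.1.1 γ
    rw [smul_zero]
    exact (hφ (Additive.toMul γ)).symm
  · funext x
    simp [hm x]

theorem finrank_ker_theta_le : finrank ℂ (LinearMap.ker (theta N)) ≤ 1 := by
  have h := Submodule.finrank_mono (ker_theta_le N)
  have h4 := finrank_span_le_card (R := ℂ)
    ({((0 : ↥(parabolicHoms ℂ (Gamma0 N) ℂ)), (fun _ : Q N => (1 : ℂ)))} :
      Set (↥(parabolicHoms ℂ (Gamma0 N) ℂ) × (Q N → ℂ)))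
  simp only [Set.toFinset_singleton, Finset.card_singleton] at h4
  exact h.trans h4

variable [NeZero N]

theorem finiteDimensional_parabolicHoms :
    FiniteDimensional ℂ ↥(parabolicHoms ℂ (Gamma0 N) ℂ) := by
  have hinj : Function.Injective ((theta N) ∘ₗ (LinearMap.inl ℂ _ (Q N → ℂ))) := by
    rw [← LinearMap.ker_eq_bot, LinearMap.ker_eq_bot']
    intro φ hφ
    have hk : ((φ, 0) : ↥(parabolicHoms ℂ (Gamma0 N) ℂ) × (Q N → ℂ)) ∈ LinearMap.ker (theta N) :=
      hφ
    have := ker_theta_le N hk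
    rw [Submodule.mem_span_singleton] at this
    obtain ⟨a, ha⟩ := this
    have := congrArg Prod.fst ha
    simpa using this.symm
  exact FiniteDimensional.of_injective _ hinj

omit [NeZero N] in
theorem Tc_pow_smul (x : Q N) : Tc ^ N • x = x := by
  induction x using QuotientGroup.induction_on with
  | H h =>
    obtain ⟨γ, h1, -⟩ := Tc_pow_mul N h
    rw [smul_coset, h1, QuotientGroup.eq]
    simp

/-- **Group-theoretic bound**, in natural numbers. -/
theorem finrank_parabolicHoms_add_le :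
    finrank ℂ ↥(parabolicHoms ℂ (Gamma0 N) ℂ)
      + Nat.card (orbitRel.Quotient (Subgroup.zpowers S) (Q N))
      + Nat.card (orbitRel.Quotient (Subgroup.zpowers (S * T)) (Q N))
      + Nat.card (orbitRel.Quotient (Subgroup.zpowers T) (Q N)) ≤ Nat.card (Q N) + 2 := by
  classical
  have := finiteDimensional_parabolicHoms N
  have : Fintype (Q N) := Fintype.ofFinite _
  have dS : finrank ℂ (LinearMap.ker (normOp (X := Q N) ℂ S 2))
      + Nat.card (orbitRel.Quotient (Subgroup.zpowers S) (Q N)) = Nat.card (Q N) :=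
    finrank_ker_normOp_add (k := ℂ) (X := Q N) (σ := S) (d := 2) two_ne_zero
      (S_sq_smul (N := N))
  have dU : finrank ℂ (LinearMap.ker (normOp (X := Q N) ℂ (S * T) 3))
      + Nat.card (orbitRel.Quotient (Subgroup.zpowers (S * T)) (Q N)) = Nat.card (Q N) :=
    finrank_ker_normOp_add (k := ℂ) (X := Q N) (σ := S * T) (d := 3) three_ne_zero
      (ST_cube_smul (N := N))
  have dT : finrank ℂ (LinearMap.ker (normOp (X := Q N) ℂ Tc N))
      + Nat.card (orbitRel.Quotient (Subgroup.zpowers Tc) (Q N)) = Nat.card (Q N) :=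
    finrank_ker_normOp_add (k := ℂ) (X := Q N) (σ := Tc) (d := N) (NeZero.ne N)
      (Tc_pow_smul N)
  have hconj : Nat.card (orbitRel.Quotient (Subgroup.zpowers Tc) (Q N))
      = Nat.card (orbitRel.Quotient (Subgroup.zpowers T) (Q N)) := card_orbits_conj T S
  have hsup := card_le_finrank_sup_add_one (k := ℂ) (X := Q N) closure_S_ST
    (S_sq_smul (N := N)) (ST_cube_smul (N := N)) ((1 : SL(2, ℤ)) : Q N)
  have hsi := Submodule.finrank_sup_add_finrank_inf_eq
    (LinearMap.ker (normOp (X := Q N) ℂ S 2)) (LinearMap.ker (normOp (X := Q N) ℂ (S * T) 3))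
  have hZle : finrank ℂ ((LinearMap.ker (normOp (X := Q N) ℂ Tc N)).map
      (LinearMap.funLeft ℂ ℂ (fun x : Q N => S • x)))
      ≤ finrank ℂ (LinearMap.ker (normOp (X := Q N) ℂ Tc N)) := Submodule.finrank_map_le _ _
  set KS := LinearMap.ker (normOp (X := Q N) ℂ S 2) with hKS
  set KU := LinearMap.ker (normOp (X := Q N) ℂ (S * T) 3) with hKU
  set KT := LinearMap.ker (normOp (X := Q N) ℂ Tc N) with hKT
  set Z := KT.map (LinearMap.funLeft ℂ ℂ (fun x : Q N => S • x)) with hZ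
  have hrk := LinearMap.finrank_range_add_finrank_ker (theta N)
  rw [Module.finrank_prod, Module.finrank_fintype_fun_eq_card, ← Nat.card_eq_fintype_card] at hrk
  have hk := finrank_ker_theta_le N
  set R := LinearMap.range (theta N) with hR
  have hRle : finrank ℂ R ≤ finrank ℂ ↥(KS ⊓ KU) + finrank ℂ Z := by
    set D : R →ₗ[ℂ] (Q N → ℂ) :=
      (LinearMap.snd ℂ (Q N → ℂ) (Q N → ℂ) - LinearMap.fst ℂ (Q N → ℂ) (Q N → ℂ)).domRestrict R
      with hD
    have h1 := LinearMap.finrank_range_add_finrank_ker D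
    have h2 : finrank ℂ (LinearMap.range D) ≤ finrank ℂ Z := by
      apply Submodule.finrank_mono
      rintro _ ⟨⟨r, ⟨p, rfl⟩⟩, rfl⟩
      exact theta_sub_mem N p
    have h3 : finrank ℂ (LinearMap.ker D) ≤ finrank ℂ ↥(KS ⊓ KU) := by
      let f : LinearMap.ker D →ₗ[ℂ] ↥(KS ⊓ KU) :=
        LinearMap.codRestrict (KS ⊓ KU)
          ((LinearMap.fst ℂ (Q N → ℂ) (Q N → ℂ)) ∘ₗ R.subtype ∘ₗ (LinearMap.ker D).subtype) (by
            rintro ⟨⟨r, ⟨p, rfl⟩⟩, hr⟩
            have hr' : (theta N p).2 - (theta N p).1 = 0 := hr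
            have h12 : (theta N p).1 = (theta N p).2 := (sub_eq_zero.mp hr').symm
            refine ⟨theta_fst_mem N p, ?_⟩
            change (theta N p).1 ∈ KU
            rw [h12]
            exact theta_snd_mem N p)
      apply LinearMap.finrank_le_finrank_of_injective (f := f)
      rintro ⟨⟨a, ha⟩, hka⟩ ⟨⟨b, hb⟩, hkb⟩ hab
      have e1 : a.1 = b.1 := congrArg Subtype.val hab
      have ea : a.2 - a.1 = 0 := hka
      have eb : b.2 - b.1 = 0 := hkb
      have e2 : a.2 = b.2 := by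
        rw [sub_eq_zero.mp ea, sub_eq_zero.mp eb, e1]
      apply Subtype.ext
      apply Subtype.ext
      exact Prod.ext e1 e2
    omega
  omega

/-- **Group-theoretic bound**: `dim_ℂ Hom_par(Γ₀(N), ℂ) ≤ 2 g(N)`. -/
theorem finrank_parabolicHoms_le :
    (finrank ℂ ↥(parabolicHoms ℂ (Gamma0 N) ℂ) : ℚ) ≤ 2 * genusFormula N := by
  have h := finrank_parabolicHoms_add_le N
  have hh := hurwitz_count N
  have h' : (finrank ℂ ↥(parabolicHoms ℂ (Gamma0 N) ℂ) : ℚ)
      + Nat.card (orbitRel.Quotient (Subgroup.zpowers S) (Q N))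
      + Nat.card (orbitRel.Quotient (Subgroup.zpowers (S * T)) (Q N))
      + Nat.card (orbitRel.Quotient (Subgroup.zpowers T) (Q N)) ≤ Nat.card (Q N) + 2 := by
    exact_mod_cast h
  linarith

end Fermat.Agent.S21
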