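import Mathlib
import Fermat.Agent.S21.ParabolicBound
import Fermat.Agent.S24.Comb.Parity

set_option autoImplicit false

/-!
# `genusFormula N` is a natural number

Corollaries of the parabolic bound: the inequality `o_{ST} + o_S + o_T ≤ #Q + 2` (Scott / Ree for
the triple `(S, ST, T)` on `SL(2, ℤ) ⧸ Γ₀(N)`), and, with the parity statement, integrality and
non-negativity of `genusFormula N`.
-/

namespace Fermat.Agent.S21

open CongruenceSubgroup ModularGroup MulAction Module ModularCurve ModularCurve.Period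
open Fermat.Agent.S24.Comb
open scoped MatrixGroups

variable (N : ℕ) [NeZero N]

/-- `o_{ST} + o_S + o_T ≤ #Q + 2` (the "genus is non-negative" inequality). -/
theorem card_orbits_add_le :
    Nat.card (orbitRel.Quotient (Subgroup.zpowers (S * T)) (Q N))
      + Nat.card (orbitRel.Quotient (Subgroup.zpowers S) (Q N))
      + Nat.card (orbitRel.Quotient (Subgroup.zpowers T) (Q N)) ≤ Nat.card (Q N) + 2 := by
  have := finrank_parabolicHoms_add_le N
  omega

/-- `genusFormula N` is a natural number. -/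
theorem genusFormula_eq_natCast : ∃ g : ℕ, (g : ℚ) = genusFormula N := by
  obtain ⟨r, hr⟩ := even_total N
  have hle := card_orbits_add_le N
  have hh := hurwitz_count N
  have hle' : (Nat.card (orbitRel.Quotient (Subgroup.zpowers (S * T)) (Q N)) : ℤ)
      + Nat.card (orbitRel.Quotient (Subgroup.zpowers S) (Q N))
      + Nat.card (orbitRel.Quotient (Subgroup.zpowers T) (Q N)) ≤ Nat.card (Q N) + 2 := by
    exact_mod_cast hle
  have hr0 : 0 ≤ r + 1 := by omega
  refine ⟨(r + 1).toNat, ?_⟩
  have h1 : (((r + 1).toNat : ℤ) : ℚ) = ((r + 1 : ℤ) : ℚ) := by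
    rw [Int.toNat_of_nonneg hr0]
  have h2 : (((r + 1).toNat : ℕ) : ℚ) = (((r + 1).toNat : ℤ) : ℚ) := by
    push_cast
    rfl
  rw [h2, h1]
  have hrq : ((Nat.card (Q N) : ℤ) : ℚ)
      - ((Nat.card (orbitRel.Quotient (Subgroup.zpowers (S * T)) (Q N)) : ℤ) : ℚ)
      - ((Nat.card (orbitRel.Quotient (Subgroup.zpowers S) (Q N)) : ℤ) : ℚ)
      - ((Nat.card (orbitRel.Quotient (Subgroup.zpowers T) (Q N)) : ℤ) : ℚ) = (r : ℚ) + r := by
    exact_mod_cast congrArg (Int.cast : ℤ → ℚ) hr
  push_cast at hrq ⊢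
  linarith

end Fermat.Agent.S21
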